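import Mathlib
import Fermat.Prelude.Def_ModularForm_HeckeOperator

set_option autoImplicit false

open UpperHalfPlane hiding I
open scoped MatrixGroups ModularForm
open Matrix.SpecialLinearGroup

namespace Fermat.Agent.S22.HeckeDatum

/-- `op` is a finite sum of slashes by upper triangular integral matrices of a common determinant,
whose right cosets are permuted by `Γ₀(N)`. -/
def IsHeckeDatum (N : ℕ) (k : ℤ) (op : (ℍ → ℂ) → (ℍ → ℂ)) : Prop :=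
  ∃ (ι : Type) (_ : Fintype ι) (δ : ι → GL (Fin 2) ℝ) (a b d : ι → ℤ) (D : ℤ),
    (∀ i, (δ i : Matrix (Fin 2) (Fin 2) ℝ) = !![(a i : ℝ), (b i : ℝ); 0, (d i : ℝ)]) ∧
    (∀ i, 0 < a i) ∧ (∀ i, 0 < d i) ∧ (∀ i, a i * d i = D) ∧
    (∀ f : ℍ → ℂ, op f = ∑ i, f ∣[k] δ i) ∧
    (∀ g ∈ CongruenceSubgroup.Gamma0 N, ∃ σ : Equiv.Perm ι, ∀ i,
      ∃ g' ∈ CongruenceSubgroup.Gamma0 N, δ i * mapGL ℝ g = mapGL ℝ g' * δ (σ i))

end Fermat.Agent.S22.HeckeDatum
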