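import Mathlib

set_option autoImplicit false

open UpperHalfPlane hiding I
open Filter Function Complex
open scoped Topology Manifold MatrixGroups

namespace Fermat.Agent.S22.Tower

/-- A tower of iterated primitives on the upper half plane, each vanishing at `i∞`. -/
structure IsTower (T : ℕ → ℍ → ℂ) : Prop where
  zero : ∀ m, IsZeroAtImInfty (T (m + 1))
  deriv : ∀ m (τ : ℍ), HasDerivAt (T (m + 1) ∘ ofComplex) (T m τ) τ

theorem upper_isOpen : IsOpen {z : ℂ | 0 < z.im} := isOpen_upperHalfPlaneSet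

theorem upper_isPreconnected : IsPreconnected {z : ℂ | 0 < z.im} :=
  (convex_halfSpace_im_gt 0).isPreconnected

theorem exists_const_of_hasDerivAt_zero {D : ℂ → ℂ} (h : ∀ τ : ℍ, HasDerivAt D 0 τ) :
    ∃ a, ∀ τ : ℍ, D τ = a := by
  have hd : DifferentiableOn ℂ D {z : ℂ | 0 < z.im} := fun z hz =>
    (h ⟨z, hz⟩).differentiableAt.differentiableWithinAt
  have hd' : Set.EqOn (deriv D) 0 {z : ℂ | 0 < z.im} := fun z hz => (h ⟨z, hz⟩).deriv
  obtain ⟨a, ha⟩ := upper_isOpen.exists_is_const_of_deriv_eq_zero upper_isPreconnected hd hd'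
  exact ⟨a, fun τ => ha τ τ.im_pos⟩

theorem eq_of_hasDerivAt_of_zero {F G φ : ℍ → ℂ}
    (hF : ∀ τ : ℍ, HasDerivAt (F ∘ ofComplex) (φ τ) τ)
    (hG : ∀ τ : ℍ, HasDerivAt (G ∘ ofComplex) (φ τ) τ)
    (hF0 : IsZeroAtImInfty F) (hG0 : IsZeroAtImInfty G) : F = G := by
  obtain ⟨a, ha⟩ := exists_const_of_hasDerivAt_zero (D := F ∘ ofComplex - G ∘ ofComplex)
    (fun τ => by have := (hF τ).sub (hG τ); rwa [sub_self] at this)
  have ha' : ∀ τ : ℍ, F τ - G τ = a := fun τ => by simpa using ha τ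
  have h1 : Tendsto (fun τ : ℍ => F τ - G τ) atImInfty (𝓝 (0 - 0)) := hF0.sub hG0
  have h2 : Tendsto (fun τ : ℍ => F τ - G τ) atImInfty (𝓝 a) := by
    simp only [ha']; exact tendsto_const_nhds
  have : a = 0 := by simpa using tendsto_nhds_unique h2 h1
  funext τ
  have := ha' τ
  rw [‹a = 0›] at this
  exact sub_eq_zero.mp this

theorem IsTower.ext {T T' : ℕ → ℍ → ℂ} (hT : IsTower T) (hT' : IsTower T') (h0 : T 0 = T' 0) :
    T = T' := by
  funext m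
  induction m with
  | zero => exact h0
  | succ m ih =>
    exact eq_of_hasDerivAt_of_zero (φ := T m) (hT.deriv m) (fun τ => by rw [ih]; exact hT'.deriv m τ)
      (hT.zero m) (hT'.zero m)


local notation "𝕢" => Periodic.qParam

theorem hasDerivAt_qParam (h : ℝ) (z : ℂ) :
    HasDerivAt (𝕢 h) (𝕢 h z * (2 * Real.pi * I / h)) z := by
  have h1 : HasDerivAt (fun z : ℂ => 2 * Real.pi * I * z / h) (2 * Real.pi * I / h) z := by
    simpa using ((hasDerivAt_id z).const_mul (2 * Real.pi * I)).div_const (h : ℂ)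
  exact h1.cexp

theorem exists_primitive {h : ℝ} (hh : 0 < h) {φ : ℍ → ℂ}
    (hper : Periodic (φ ∘ ofComplex) h) (hhol : MDiff φ) (hzero : IsZeroAtImInfty φ) :
    ∃ Φ : ℍ → ℂ, Periodic (Φ ∘ ofComplex) h ∧ MDiff Φ ∧ IsZeroAtImInfty Φ ∧
      ∀ τ : ℍ, HasDerivAt (Φ ∘ ofComplex) (φ τ) τ := by
  set c := cuspFunction h φ with hc
  have hcd : DifferentiableOn ℂ c (Metric.ball 0 1) :=
    differentiableOn_cuspFunction_ball hh hper hhol hzero.isBoundedAtImInfty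
  have hc0 : c 0 = 0 := hzero.cuspFunction_apply_zero hh
  have hgd : DifferentiableOn ℂ (dslope c 0) (Metric.ball 0 1) :=
    (Complex.differentiableOn_dslope (Metric.ball_mem_nhds 0 one_pos)).mpr hcd
  have hg2 : DifferentiableOn ℂ (fun q => (h / (2 * Real.pi * I) : ℂ) * dslope c 0 q)
      (Metric.ball 0 1) := hgd.const_mul _
  obtain ⟨G, hG0, hG⟩ := (hg2.isExactOn_ball).with_val_at 0 0
  have hq1 : ∀ τ : ℍ, 𝕢 h τ ∈ Metric.ball (0 : ℂ) 1 := fun τ => by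
    simpa using Periodic.norm_qParam_lt_one hh τ.im_pos
  have hderiv : ∀ τ : ℍ, HasDerivAt (fun z : ℂ => G (𝕢 h z)) (φ τ) τ := by
    intro τ
    have h1 := (hG _ (hq1 τ)).comp (τ : ℂ) (hasDerivAt_qParam h τ)
    have h2 : (h / (2 * Real.pi * I) : ℂ) * dslope c 0 (𝕢 h τ) * (𝕢 h τ * (2 * Real.pi * I / h))
        = φ τ := by
      have h3 := sub_smul_dslope c 0 (𝕢 h τ)
      rw [hc0, sub_zero, sub_zero, smul_eq_mul] at h3
      have h4 : c (𝕢 h τ) = φ τ := eq_cuspFunction τ hh.ne' hper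
      have hh' : (h : ℂ) ≠ 0 := by exact_mod_cast hh.ne'
      have hpi : (2 * Real.pi * I : ℂ) ≠ 0 := Complex.two_pi_I_ne_zero
      rw [← h4, ← h3]
      field_simp
    rw [h2] at h1
    exact h1
  refine ⟨fun τ => G (𝕢 h τ), ?_, ?_, ?_, ?_⟩
  · intro w
    by_cases hw : 0 < w.im
    · have hw' : 0 < (w + h).im := by simpa using hw
      simp only [comp_apply, ofComplex_apply_of_im_pos hw', ofComplex_apply_of_im_pos hw]
      congr 1
      simp only [Periodic.qParam]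
      have hh' : (h : ℂ) ≠ 0 := by exact_mod_cast hh.ne'
      rw [show 2 * (Real.pi : ℂ) * I * (w + h) / h = 2 * Real.pi * I * w / h + 2 * Real.pi * I by
        field_simp]
      rw [Complex.exp_add, Complex.exp_two_pi_mul_I, mul_one]
    · have hw1 : w.im ≤ 0 := not_lt.mp hw
      have hw' : (w + h).im ≤ 0 := by simpa using hw1
      simp [ofComplex_apply_of_im_nonpos hw', ofComplex_apply_of_im_nonpos hw1]
  · intro τ
    refine mdifferentiableAt_iff.mpr ?_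
    have : (fun τ : ℍ => G (𝕢 h τ)) ∘ ofComplex =ᶠ[𝓝 (τ : ℂ)] fun z : ℂ => G (𝕢 h z) := by
      filter_upwards [eventuallyEq_coe_comp_ofComplex τ.im_pos] with z hz
      simp only [comp_apply] at hz ⊢
      rw [hz]; rfl
    exact ((hderiv τ).congr_of_eventuallyEq this).differentiableAt
  · have hGc : ContinuousAt G 0 := (hG 0 (Metric.mem_ball_self one_pos)).continuousAt
    have h1 : Tendsto (fun τ : ℍ => G (𝕢 h τ)) atImInfty (𝓝 (G 0)) :=
      hGc.tendsto.comp (qParam_tendsto_atImInfty hh)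
    rw [hG0] at h1
    exact h1
  · intro τ
    have : (fun τ : ℍ => G (𝕢 h τ)) ∘ ofComplex =ᶠ[𝓝 (τ : ℂ)] fun z : ℂ => G (𝕢 h z) := by
      filter_upwards [eventuallyEq_coe_comp_ofComplex τ.im_pos] with z hz
      simp only [comp_apply] at hz ⊢
      rw [hz]; rfl
    exact (hderiv τ).congr_of_eventuallyEq this


theorem exists_tower {h : ℝ} (hh : 0 < h) {φ : ℍ → ℂ}
    (hper : Periodic (φ ∘ ofComplex) h) (hhol : MDiff φ) (hzero : IsZeroAtImInfty φ) :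
    ∃ T : ℕ → ℍ → ℂ, T 0 = φ ∧ IsTower T ∧ ∀ m, Periodic (T m ∘ ofComplex) h := by
  classical
  let P : (ℍ → ℂ) → Prop := fun ψ => Periodic (ψ ∘ ofComplex) h ∧ MDiff ψ ∧ IsZeroAtImInfty ψ
  have step : ∀ ψ : {ψ // P ψ}, ∃ Ψ : {Ψ // P Ψ},
      ∀ τ : ℍ, HasDerivAt (Ψ.1 ∘ ofComplex) (ψ.1 τ) τ := by
    rintro ⟨ψ, h1, h2, h3⟩
    obtain ⟨Ψ, g1, g2, g3, g4⟩ := exists_primitive hh h1 h2 h3
    exact ⟨⟨Ψ, g1, g2, g3⟩, g4⟩
  choose nxt hnxt using step
  let S : ℕ → {ψ // P ψ} := fun m => Nat.rec ⟨φ, hper, hhol, hzero⟩ (fun _ x => nxt x) m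
  refine ⟨fun m => (S m).1, rfl, ⟨fun m => (S (m + 1)).2.2.2, fun m τ => ?_⟩, fun m => (S m).2.1⟩
  exact hnxt (S m) τ

/-- The canonical tower over a function (junk if none exists). -/
noncomputable def towerOf (φ : ℍ → ℂ) : ℕ → ℍ → ℂ :=
  open Classical in
  if h : ∃ T : ℕ → ℍ → ℂ, T 0 = φ ∧ IsTower T then h.choose else fun _ => 0

theorem towerOf_eq {φ : ℍ → ℂ} {T : ℕ → ℍ → ℂ} (h0 : T 0 = φ) (hT : IsTower T) :
    towerOf φ = T := by
  have h : ∃ T : ℕ → ℍ → ℂ, T 0 = φ ∧ IsTower T := ⟨T, h0, hT⟩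
  unfold towerOf
  rw [dif_pos h]
  exact IsTower.ext h.choose_spec.2 hT (h.choose_spec.1.trans h0.symm)

theorem IsTower.add {T T' : ℕ → ℍ → ℂ} (hT : IsTower T) (hT' : IsTower T') :
    IsTower (fun m => T m + T' m) where
  zero m := (hT.zero m).add (hT'.zero m)
  deriv m τ := (hT.deriv m τ).add (hT'.deriv m τ)

theorem IsTower.const_smul {T : ℕ → ℍ → ℂ} (hT : IsTower T) (c : ℂ) :
    IsTower (fun m => c • T m) where
  zero m := (hT.zero m).smul c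
  deriv m τ := (hT.deriv m τ).const_smul c

theorem isTower_zero : IsTower (fun _ => (0 : ℍ → ℂ)) where
  zero _ := zero_zeroAtFilter _
  deriv _ τ := by simpa using hasDerivAt_const (τ : ℂ) (0 : ℂ)

theorem IsTower.sum {ι : Type*} (s : Finset ι) {T : ι → ℕ → ℍ → ℂ} (hT : ∀ i ∈ s, IsTower (T i)) :
    IsTower (fun m => ∑ i ∈ s, T i m) := by
  classical
  induction s using Finset.induction_on with
  | empty => simp [isTower_zero]
  | insert a s ha ih =>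
    have h1 := (hT a (Finset.mem_insert_self a s)).add
      (ih fun i hi => hT i (Finset.mem_insert_of_mem hi))
    simpa [Finset.sum_insert ha] using h1


theorem ut_entries_ne_zero (δ : GL (Fin 2) ℝ) (h10 : δ 1 0 = 0) (hdet : 0 < δ.val.det) :
    (δ 0 0 : ℝ) ≠ 0 ∧ (δ 1 1 : ℝ) ≠ 0 := by
  rw [Matrix.det_fin_two, h10, mul_zero, sub_zero] at hdet
  constructor
  · intro h; rw [h, zero_mul] at hdet; exact lt_irrefl _ hdet
  · intro h; rw [h, mul_zero] at hdet; exact lt_irrefl _ hdet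

theorem hasDerivAt_comp_smul {F : ℍ → ℂ} {F' : ℂ} (δ : GL (Fin 2) ℝ) (hdet : 0 < δ.val.det) (τ : ℍ)
    (hF : HasDerivAt (F ∘ ofComplex) F' ((δ • τ : ℍ) : ℂ)) :
    HasDerivAt ((fun τ' : ℍ => F (δ • τ')) ∘ ofComplex)
      (F' * ((δ.val.det : ℂ) / denom δ τ ^ 2)) τ := by
  have h1 : HasDerivAt (fun z : ℂ => ((δ • ofComplex z : ℍ) : ℂ))
      ((δ.val.det : ℂ) / denom δ τ ^ 2) τ := (hasStrictDerivAt_smul hdet τ).hasDerivAt
  have h2 := HasDerivAt.comp_of_eq (τ : ℂ) hF h1 (by simp [ofComplex_apply])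
  have h3 : (F ∘ ofComplex) ∘ (fun z : ℂ => ((δ • ofComplex z : ℍ) : ℂ))
      = (fun τ' : ℍ => F (δ • τ')) ∘ ofComplex := by
    funext z
    simp [ofComplex_apply]
  rw [h3] at h2
  exact h2

theorem IsTower.comp_ut {T : ℕ → ℍ → ℂ} (hT : IsTower T) (δ : GL (Fin 2) ℝ) (h10 : δ 1 0 = 0)
    (hdet : 0 < δ.val.det) (c : ℂ) :
    IsTower (fun m τ => c * (((δ 1 1 : ℝ) : ℂ) / ((δ 0 0 : ℝ) : ℂ)) ^ m * T m (δ • τ)) where
  zero m := by
    have h1 : IsZeroAtImInfty (fun τ : ℍ => T (m + 1) (δ • τ)) :=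
      (hT.zero m).comp (tendsto_smul_atImInfty h10)
    have h2 := h1.smul (c * (((δ 1 1 : ℝ) : ℂ) / ((δ 0 0 : ℝ) : ℂ)) ^ (m + 1))
    exact h2
  deriv m τ := by
    obtain ⟨ha, hd⟩ := ut_entries_ne_zero δ h10 hdet
    have ha' : ((δ 0 0 : ℝ) : ℂ) ≠ 0 := by exact_mod_cast ha
    have hd' : ((δ 1 1 : ℝ) : ℂ) ≠ 0 := by exact_mod_cast hd
    have h1 := hasDerivAt_comp_smul δ hdet τ (hT.deriv m (δ • τ))
    have h2 := h1.const_mul (c * (((δ 1 1 : ℝ) : ℂ) / ((δ 0 0 : ℝ) : ℂ)) ^ (m + 1))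
    have hden : denom δ τ = ((δ 1 1 : ℝ) : ℂ) := by simp [denom, h10]
    have hdetc : ((δ.val.det : ℝ) : ℂ) = ((δ 0 0 : ℝ) : ℂ) * ((δ 1 1 : ℝ) : ℂ) := by
      rw [Matrix.det_fin_two, h10]; push_cast; ring
    have h3 : c * (((δ 1 1 : ℝ) : ℂ) / ((δ 0 0 : ℝ) : ℂ)) ^ (m + 1) *
        (T m (δ • τ) * (((δ.val.det : ℝ) : ℂ) / denom δ τ ^ 2))
        = c * (((δ 1 1 : ℝ) : ℂ) / ((δ 0 0 : ℝ) : ℂ)) ^ m * T m (δ • τ) := by
      rw [hden, hdetc]
      generalize ((δ 0 0 : ℝ) : ℂ) = A at ha' ⊢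
      generalize ((δ 1 1 : ℝ) : ℂ) = D at hd' ⊢
      rw [pow_succ]
      field_simp
    rw [h3] at h2
    exact h2

end Fermat.Agent.S22.Tower
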