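import Mathlib
import Fermat.Agent.Lib.HeckeFinite

set_option autoImplicit false

namespace Fermat.Agent.S22.Abstract

theorem finite_adjoin_of_lattice {V : Type*} [AddCommGroup V] [Module ℂ V]
    (gens : Set (Module.End ℂ V)) (L : Submodule ℤ (Module.Dual ℂ V)) (hfg : L.FG)
    (hstab : ∀ t ∈ gens, ∀ l ∈ L, l ∘ₗ t ∈ L)
    (hsep : ∀ v : V, (∀ l ∈ L, l v = 0) → v = 0) :
    Module.Finite ℤ (Algebra.adjoin ℤ gens) :=
  Fermat.Agent.Lib.HeckeFinite.finite_adjoin_of_dual_lattice gens L hfg hstab hsep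

end Fermat.Agent.S22.Abstract
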