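import Fermat.Agent.S22.Lattice
import Fermat.Agent.S22.HeckeDatum

set_option autoImplicit false

open Polynomial Filter Function
open UpperHalfPlane hiding I
open scoped Topology Manifold MatrixGroups ModularForm
open Matrix.SpecialLinearGroup

namespace Fermat.Agent.S22.Hecke

open Fermat.Agent.S22.Tower Fermat.Agent.S22.PolyAct Fermat.Agent.S22.Period
open Fermat.Agent.S22.Lattice Fermat.Agent.S22.HeckeDatum

section poly

theorem iterate_derivative_comp_linear (q : ℂ[X]) (α β : ℂ) (j : ℕ) :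
    derivative^[j] (q.comp (C α * X + C β)) =
      C (α ^ j) * (derivative^[j] q).comp (C α * X + C β) := by
  induction j generalizing q with
  | zero => simp
  | succ j ih =>
    rw [Function.iterate_succ_apply, derivative_comp]
    have hL : derivative (C α * X + C β : ℂ[X]) = C α := by simp
    rw [hL, iterate_derivative_C_mul, ih, Function.iterate_succ_apply, pow_succ, C_mul]
    ring

theorem eval_iterate_derivative_of_eval {q r : ℂ[X]} {lam α β : ℂ}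
    (h : ∀ x, r.eval x = lam * q.eval (α * x + β)) (j : ℕ) (y : ℂ) :
    (derivative^[j] r).eval y = lam * α ^ j * (derivative^[j] q).eval (α * y + β) := by
  have hr : r = C lam * q.comp (C α * X + C β) := by
    refine Polynomial.funext fun x => ?_
    rw [h x]
    simp
  rw [hr, iterate_derivative_C_mul, iterate_derivative_comp_linear]
  simp
  ring

end poly


/-- `δ` is the upper triangular matrix `[a b; 0 d]` with positive integral diagonal. -/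
structure UT (δ : GL (Fin 2) ℝ) (a b d : ℤ) : Prop where
  mat : (δ : Matrix (Fin 2) (Fin 2) ℝ) = !![(a : ℝ), (b : ℝ); 0, (d : ℝ)]
  ha : 0 < a
  hd : 0 < d

namespace UT

variable {δ : GL (Fin 2) ℝ} {a b d : ℤ}

theorem e00 (h : UT δ a b d) : (δ 0 0 : ℝ) = a := by rw [h.mat]; simp
theorem e01 (h : UT δ a b d) : (δ 0 1 : ℝ) = b := by rw [h.mat]; simp
theorem e10 (h : UT δ a b d) : (δ 1 0 : ℝ) = 0 := by rw [h.mat]; simp
theorem e11 (h : UT δ a b d) : (δ 1 1 : ℝ) = d := by rw [h.mat]; simp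

theorem ha' (h : UT δ a b d) : (a : ℂ) ≠ 0 := by exact_mod_cast h.ha.ne'
theorem hd' (h : UT δ a b d) : (d : ℂ) ≠ 0 := by exact_mod_cast h.hd.ne'

theorem det_eq (h : UT δ a b d) : δ.val.det = (a : ℝ) * d := by
  rw [Matrix.det_fin_two, h.e00, h.e01, h.e10, h.e11]; ring

theorem det_pos (h : UT δ a b d) : 0 < δ.val.det := by
  rw [h.det_eq]
  have h1 : (0 : ℝ) < a := by exact_mod_cast h.ha
  have h2 : (0 : ℝ) < d := by exact_mod_cast h.hd
  positivity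

theorem denom_eq (h : UT δ a b d) (z : ℂ) : denom δ z = d := by
  simp [denom, h.e10, h.e11]

theorem num_eq (h : UT δ a b d) (z : ℂ) : num δ z = a * z + b := by
  simp [num, h.e00, h.e01]

theorem coe_smul (h : UT δ a b d) (τ : ℍ) : ((δ • τ : ℍ) : ℂ) = ((a : ℂ) * τ + b) / d := by
  rw [coe_smul_of_det_pos (by simpa using h.det_pos), h.num_eq, h.denom_eq]

theorem inv_mat (h : UT δ a b d) :
    ((δ⁻¹ : GL (Fin 2) ℝ) : Matrix (Fin 2) (Fin 2) ℝ) =
      !![(d : ℝ) / (a * d), -(b : ℝ) / (a * d); 0, (a : ℝ) / (a * d)] := by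
  have h1 : (a : ℝ) ≠ 0 := by exact_mod_cast h.ha.ne'
  have h2 : (d : ℝ) ≠ 0 := by exact_mod_cast h.hd.ne'
  rw [Matrix.coe_units_inv, h.mat, Matrix.inv_def, Matrix.det_fin_two_of, Matrix.adjugate_fin_two_of]
  simp [Ring.inverse_eq_inv']
  refine ⟨⟨?_, ?_⟩, ?_⟩ <;> field_simp

end UT

/-- The adjugate action on polynomials. -/
noncomputable def adjP (n : ℕ) (a b d : ℤ) (p : ℂ[X]) : ℂ[X] :=
  pact n (d : ℂ) (-(b : ℂ)) 0 (a : ℂ) p

theorem natDegree_adjP_le (n : ℕ) (a b d : ℤ) (p : ℂ[X]) : (adjP n a b d p).natDegree ≤ n :=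
  natDegree_pact_le _ _ _ _ _ _

theorem adjP_mem_Ln {n : ℕ} {p : ℂ[X]} (hp : p ∈ Ln n) (a b d : ℤ) : adjP n a b d p ∈ Ln n := by
  have := pact_mem_Ln hp d (-b) 0 a
  simpa [adjP] using this

theorem adjP_eq {δ : GL (Fin 2) ℝ} {a b d : ℤ} (h : UT δ a b d) (n : ℕ) (p : ℂ[X]) :
    adjP n a b d p = C (((a : ℂ) * d) ^ n) * pactG n δ⁻¹ p := by
  have h1 := h.ha'
  have h2 := h.hd'
  unfold pactG adjP
  rw [← pact_scale, h.inv_mat]
  congr 1
  · simp; field_simp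
  · simp; field_simp
  · simp
  · simp; field_simp

theorem eval_adjP {n : ℕ} {p : ℂ[X]} (hp : p.natDegree ≤ n) {a : ℤ} (ha : (a : ℂ) ≠ 0) (b d : ℤ)
    (x : ℂ) :
    (adjP n a b d p).eval x = (a : ℂ) ^ n * p.eval ((d : ℂ) / a * x + (-(b : ℂ) / a)) := by
  unfold adjP
  rw [eval_pact_div hp _ _ _ _ x (by simpa using ha)]
  simp only [zero_mul, zero_add]
  congr 2
  field_simp


theorem UT.slash_apply {δ : GL (Fin 2) ℝ} {a b d : ℤ} (h : UT δ a b d) (n : ℕ) (f : ℍ → ℂ)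
    (τ : ℍ) : (f ∣[(n : ℤ) + 2] δ) τ = ((a : ℂ) ^ (n + 1) / (d : ℂ)) * f (δ • τ) := by
  have h1 := h.ha'
  have h2 := h.hd'
  have hdet : δ.det.val = (a : ℝ) * d := by
    rw [Matrix.GeneralLinearGroup.val_det_apply, h.det_eq]
  have hpos : 0 < δ.det.val := by
    rw [Matrix.GeneralLinearGroup.val_det_apply]; exact h.det_pos
  have hσ : σ δ = ContinuousAlgEquiv.refl ℝ ℂ := by rw [σ, if_pos hpos]
  rw [ModularForm.slash_apply, h.denom_eq, hσ, hdet, abs_of_pos (by rw [← hdet]; exact hpos)]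
  have e1 : ((n : ℤ) + 2 - 1) = ((n + 1 : ℕ) : ℤ) := by push_cast; ring
  have e2 : ((n : ℤ) + 2) = ((n + 2 : ℕ) : ℤ) := by push_cast; ring
  rw [e1, zpow_natCast, e2, zpow_neg, zpow_natCast]
  simp only [ContinuousAlgEquiv.refl_apply]
  push_cast
  field_simp
  ring

/-- The tower of `f ∣[n+2] δ` expressed through the tower of `f`. -/
noncomputable def twδ (n : ℕ) (T : ℕ → ℍ → ℂ) (δ : GL (Fin 2) ℝ) (a d : ℤ) : ℕ → ℍ → ℂ :=
  fun m τ => ((a : ℂ) ^ (n + 1) / (d : ℂ)) * ((d : ℂ) / (a : ℂ)) ^ m * T m (δ • τ)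

theorem isTower_twδ {δ : GL (Fin 2) ℝ} {a b d : ℤ} (h : UT δ a b d) (n : ℕ) {T : ℕ → ℍ → ℂ}
    (hT : IsTower T) : IsTower (twδ n T δ a d) := by
  have := hT.comp_ut δ h.e10 h.det_pos ((a : ℂ) ^ (n + 1) / (d : ℂ))
  rw [h.e00, h.e11] at this
  simp only [Complex.ofReal_intCast] at this
  exact this

theorem twδ_zero {δ : GL (Fin 2) ℝ} {a b d : ℤ} (h : UT δ a b d) (n : ℕ) (T : ℕ → ℍ → ℂ) :
    twδ n T δ a d 0 = (T 0) ∣[(n : ℤ) + 2] δ := by
  funext τ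
  rw [h.slash_apply]
  simp [twδ]

theorem IP_twδ {δ : GL (Fin 2) ℝ} {a b d : ℤ} (h : UT δ a b d) {n : ℕ} (T : ℕ → ℍ → ℂ)
    {q : ℂ[X]} (hq : q.natDegree ≤ n) (τ : ℍ) :
    IP n (twδ n T δ a d) q τ = IP n T (adjP n a b d q) (δ • τ) := by
  have h1 := h.ha'
  have h2 := h.hd'
  unfold IP
  refine Finset.sum_congr rfl fun j _ => ?_
  rw [eval_iterate_derivative_of_eval (fun x => eval_adjP hq h1 b d x) j, h.coe_smul]
  have e : (d : ℂ) / a * (((a : ℂ) * τ + b) / d) + -(b : ℂ) / a = τ := by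
    field_simp
    ring
  rw [e]
  simp only [twδ]
  rw [pow_succ, pow_succ]
  field_simp

theorem per_tower_sum {ι : Type*} (s : Finset ι) (n : ℕ) (Ts : ι → ℕ → ℍ → ℂ)
    (g : GL (Fin 2) ℝ) (p : ℂ[X]) :
    per n (fun m => ∑ i ∈ s, Ts i m) g p = ∑ i ∈ s, per n (Ts i) g p := by
  simp only [per, IP_tower_sum, Finset.sum_sub_distrib]


section main

variable {N : ℕ} [NeZero N] {n : ℕ}

theorem adj_comm {δ₁ δ₂ : GL (Fin 2) ℝ} {a₁ b₁ d₁ a₂ b₂ d₂ : ℤ} (h₁ : UT δ₁ a₁ b₁ d₁)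
    (h₂ : UT δ₂ a₂ b₂ d₂) (hD : a₁ * d₁ = a₂ * d₂) {g g' : GL (Fin 2) ℝ}
    (hrel : δ₁ * g = g' * δ₂) (n : ℕ) (p : ℂ[X]) :
    pactG n g' (adjP n a₁ b₁ d₁ p) = adjP n a₂ b₂ d₂ (pactG n g p) := by
  have hgrp : δ₁⁻¹ * g' = g * δ₂⁻¹ := by
    rw [eq_mul_inv_iff_mul_eq, mul_assoc, ← hrel, ← mul_assoc, inv_mul_cancel, one_mul]
  have hDc : ((a₁ : ℂ) * d₁) = ((a₂ : ℂ) * d₂) := by exact_mod_cast hD
  rw [adjP_eq h₁, adjP_eq h₂, pactG_C_mul, pactG_mul, pactG_mul, hgrp, hDc]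

theorem hecke_generator (t : Module.End ℂ (CuspForm (CongruenceSubgroup.Gamma0 N) ((n : ℤ) + 2)))
    {op : (ℍ → ℂ) → (ℍ → ℂ)} (hdat : IsHeckeDatum N ((n : ℤ) + 2) op)
    (ht : ∀ f, (t f : ℍ → ℂ) = op (f : ℍ → ℂ))
    {γ : SL(2, ℤ)} (hγ : γ ∈ CongruenceSubgroup.Gamma0 N) {p : ℂ[X]} (hp : p ∈ Ln n) :
    perLin N n (mapGL ℝ γ) p ∘ₗ t ∈ Lam N n := by
  classical
  obtain ⟨ι, _, δ, a, b, d, D, hδ, ha, hd, hD, hop, hperm⟩ := hdat
  obtain ⟨σ, hσ⟩ := hperm γ hγ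
  choose g' hg' hrel using hσ
  have hUT : ∀ i, UT (δ i) (a i) (b i) (d i) := fun i => ⟨hδ i, ha i, hd i⟩
  have hpdeg : p.natDegree ≤ n := natDegree_le_of_mem_Ln hp
  have key : perLin N n (mapGL ℝ γ) p ∘ₗ t =
      ∑ i, perLin N n (mapGL ℝ (g' i)) (adjP n (a i) (b i) (d i) p) := by
    ext f
    rw [LinearMap.comp_apply, perLin_apply, LinearMap.sum_apply]
    simp only [perLin_apply]
    have htw : tw (t f) = fun m => ∑ i, twδ n (tw f) (δ i) (a i) (d i) m := by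
      apply tw_eq_of
      · rw [ht, hop]
        refine Finset.sum_congr rfl fun i _ => ?_
        rw [twδ_zero (hUT i), tw_zero]
      · exact IsTower.sum _ (fun i _ => isTower_twδ (hUT i) n (isTower_tw f))
    rw [htw, per_tower_sum]
    have hterm : ∀ i, per n (twδ n (tw f) (δ i) (a i) (d i)) (mapGL ℝ γ) p =
        IP n (tw f) (adjP n (a (σ i)) (b (σ i)) (d (σ i)) (pactG n (mapGL ℝ γ) p))
            (δ (σ i) • UpperHalfPlane.I)
        - IP n (tw f) (adjP n (a i) (b i) (d i) (pactG n (mapGL ℝ γ) p)) (δ i • UpperHalfPlane.I)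
        + per n (tw f) (mapGL ℝ (g' i)) (adjP n (a i) (b i) (d i) p) := by
      intro i
      have e1 : per n (twδ n (tw f) (δ i) (a i) (d i)) (mapGL ℝ γ) p =
          IP n (twδ n (tw f) (δ i) (a i) (d i)) p (mapGL ℝ γ • UpperHalfPlane.I)
          - IP n (twδ n (tw f) (δ i) (a i) (d i)) (pactG n (mapGL ℝ γ) p) UpperHalfPlane.I := rfl
      rw [e1, IP_twδ (hUT i) _ hpdeg, IP_twδ (hUT i) _ (natDegree_pactG_le _ _ _), ← mul_smul,
        hrel i, mul_smul,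
        IP_smul_eq (isTower_tw f) (mapGL_det (g' i)) (inv_tw f (hg' i))
          (natDegree_adjP_le _ _ _ _ _) (δ (σ i) • UpperHalfPlane.I),
        adj_comm (hUT i) (hUT (σ i)) ((hD i).trans (hD (σ i)).symm) (hrel i)]
      ring
    simp_rw [hterm]
    rw [Finset.sum_add_distrib, Finset.sum_sub_distrib,
      Equiv.sum_comp σ (fun i => IP n (tw f) (adjP n (a i) (b i) (d i) (pactG n (mapGL ℝ γ) p))
        (δ i • UpperHalfPlane.I))]
    simp
  rw [key]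
  exact Submodule.sum_mem _ fun i _ => perLin_mem_Lam (hg' i) (adjP_mem_Ln hp _ _ _)

theorem hecke_stable (t : Module.End ℂ (CuspForm (CongruenceSubgroup.Gamma0 N) ((n : ℤ) + 2)))
    {op : (ℍ → ℂ) → (ℍ → ℂ)} (hdat : IsHeckeDatum N ((n : ℤ) + 2) op)
    (ht : ∀ f, (t f : ℍ → ℂ) = op (f : ℍ → ℂ)) :
    ∀ l ∈ Lam N n, l ∘ₗ t ∈ Lam N n := by
  intro l hl
  induction hl using Submodule.span_induction with
  | mem x hx =>
    obtain ⟨γ, hγ, p, hp, rfl⟩ := hx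
    exact hecke_generator t hdat ht hγ hp
  | zero => simp
  | add x y _ _ hx hy =>
    rw [LinearMap.add_comp]
    exact add_mem hx hy
  | smul c x _ hx =>
    rw [LinearMap.smul_comp]
    exact Submodule.smul_mem _ c hx

end main

end Fermat.Agent.S22.Hecke
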