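import Mathlib
import Fermat.Prelude.Thm_ModularForm_sturm_bound_Gamma0
import Fermat.Prelude.Thm_CongruenceSubgroup_one_mem_strictPeriods_Gamma0
import Fermat.Agent.Lib.HeckeTrivialWeights

set_option autoImplicit false

namespace Fermat.Agent.S22.Trivial

theorem cuspForm_eq_zero_of_weight_le_one (N : ℕ) [NeZero N] (k : ℤ) (hk : k ≤ 1)
    (f : CuspForm (CongruenceSubgroup.Gamma0 N) k) : f = 0 := by
  rcases lt_or_eq_of_le hk with h | h
  · exact Fermat.Agent.Lib.HeckeTrivialWeights.cuspForm_eq_zero_of_nonpos N (by omega) f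
  · exact Fermat.Agent.Lib.HeckeTrivialWeights.cuspForm_eq_zero_of_odd N (by rw [h]; exact odd_one) f

/-- Odd weights also give the zero space. -/
theorem cuspForm_eq_zero_of_odd (N : ℕ) (k : ℤ) (hk : Odd k)
    (f : CuspForm (CongruenceSubgroup.Gamma0 N) k) : f = 0 :=
  Fermat.Agent.Lib.HeckeTrivialWeights.cuspForm_eq_zero_of_odd N hk f

end Fermat.Agent.S22.Trivial
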