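import Fermat.Agent.S22.Period
import Fermat.Agent.Lib.Gamma0FG
import Fermat.Prelude.Thm_CongruenceSubgroup_one_mem_strictPeriods_Gamma0

set_option autoImplicit false

open Polynomial Filter Function
open UpperHalfPlane hiding I
open scoped Topology Manifold MatrixGroups ModularForm
open Matrix.SpecialLinearGroup

namespace Fermat.Agent.S22.Lattice

open Fermat.Agent.S22.Tower Fermat.Agent.S22.PolyAct Fermat.Agent.S22.Period

theorem mapGL_entry (g : SL(2, ℤ)) (i j : Fin 2) :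
    ((mapGL ℝ g : GL (Fin 2) ℝ) i j : ℝ) = ((g i j : ℤ) : ℝ) := by
  simp

theorem mapGL_det (g : SL(2, ℤ)) : (mapGL ℝ g : GL (Fin 2) ℝ).val.det = 1 := by
  rw [← Matrix.GeneralLinearGroup.val_det_apply, det_mapGL]
  rfl

theorem slash_apply_of_det_one (f : ℍ → ℂ) (k : ℤ) {g : GL (Fin 2) ℝ} (hg : g.val.det = 1)
    (τ : ℍ) : (f ∣[k] g) τ = f (g • τ) * denom g τ ^ (-k) := by
  have hg' : g.det.val = 1 := by rw [Matrix.GeneralLinearGroup.val_det_apply, hg]
  rw [ModularForm.slash_apply]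
  simp [σ, hg']

theorem mapGL_int (g : SL(2, ℤ)) : ∀ i j, ∃ m : ℤ, ((mapGL ℝ g : GL (Fin 2) ℝ) i j : ℝ) = m :=
  fun i j => ⟨g i j, mapGL_entry g i j⟩

section tower

variable {N : ℕ} [NeZero N] {k : ℤ}

theorem exists_tower_cuspForm (f : CuspForm (CongruenceSubgroup.Gamma0 N) k) :
    ∃ T : ℕ → ℍ → ℂ, T 0 = (f : ℍ → ℂ) ∧ IsTower T ∧ ∀ m, Periodic (T m ∘ ofComplex) (1 : ℝ) := by
  have hΓ := CongruenceSubgroup.one_mem_strictPeriods_Gamma0 N
  have hper : Periodic ((f : ℍ → ℂ) ∘ ofComplex) (1 : ℝ) :=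
    SlashInvariantFormClass.periodic_comp_ofComplex f hΓ
  exact exists_tower one_pos hper (CuspFormClass.holo f) (CuspFormClass.zero_at_infty f)

/-- The canonical tower of iterated primitives of a cusp form. -/
noncomputable def tw (f : CuspForm (CongruenceSubgroup.Gamma0 N) k) : ℕ → ℍ → ℂ :=
  towerOf (f : ℍ → ℂ)

theorem tw_spec (f : CuspForm (CongruenceSubgroup.Gamma0 N) k) :
    tw f 0 = (f : ℍ → ℂ) ∧ IsTower (tw f) := by
  obtain ⟨T, h0, hT, -⟩ := exists_tower_cuspForm f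
  have : tw f = T := towerOf_eq h0 hT
  rw [this]
  exact ⟨h0, hT⟩

theorem tw_zero (f : CuspForm (CongruenceSubgroup.Gamma0 N) k) : tw f 0 = (f : ℍ → ℂ) :=
  (tw_spec f).1

theorem isTower_tw (f : CuspForm (CongruenceSubgroup.Gamma0 N) k) : IsTower (tw f) :=
  (tw_spec f).2

theorem tw_eq_of (f : CuspForm (CongruenceSubgroup.Gamma0 N) k) {T : ℕ → ℍ → ℂ}
    (h0 : T 0 = (f : ℍ → ℂ)) (hT : IsTower T) : tw f = T :=
  towerOf_eq h0 hT

theorem tw_add (f g : CuspForm (CongruenceSubgroup.Gamma0 N) k) :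
    tw (f + g) = fun m => tw f m + tw g m :=
  tw_eq_of (f + g) (by simp [tw_zero]) ((isTower_tw f).add (isTower_tw g))

theorem tw_smul (c : ℂ) (f : CuspForm (CongruenceSubgroup.Gamma0 N) k) :
    tw (c • f) = fun m => c • tw f m :=
  tw_eq_of (c • f) (by simp [tw_zero]) ((isTower_tw f).const_smul c)

end tower

section lattice

variable {N : ℕ} [NeZero N] {n : ℕ}

theorem inv_tw (f : CuspForm (CongruenceSubgroup.Gamma0 N) ((n : ℤ) + 2)) {γ : SL(2, ℤ)}
    (hγ : γ ∈ CongruenceSubgroup.Gamma0 N) : Inv n (tw f 0) (mapGL ℝ γ) := by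
  intro τ
  rw [tw_zero]
  have h1 : (f : ℍ → ℂ) ∣[(n : ℤ) + 2] (mapGL ℝ γ) = (f : ℍ → ℂ) :=
    SlashInvariantFormClass.slash_action_eq f _ (Subgroup.mem_map_of_mem (mapGL ℝ) hγ)
  have h2 := congrFun h1 τ
  rw [slash_apply_of_det_one _ _ (mapGL_det γ)] at h2
  exact h2.symm

/-- The period functional of `g` against `p`. -/
noncomputable def perLin (N n : ℕ) [NeZero N] (g : GL (Fin 2) ℝ) (p : ℂ[X]) :
    Module.Dual ℂ (CuspForm (CongruenceSubgroup.Gamma0 N) ((n : ℤ) + 2)) where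
  toFun f := per n (tw f) g p
  map_add' f g := by rw [tw_add, per_tower_add]
  map_smul' c f := by rw [tw_smul, per_tower_smul]; rfl

@[simp] theorem perLin_apply (g : GL (Fin 2) ℝ) (p : ℂ[X])
    (f : CuspForm (CongruenceSubgroup.Gamma0 N) ((n : ℤ) + 2)) :
    perLin N n g p f = per n (tw f) g p := rfl

theorem perLin_add (g : GL (Fin 2) ℝ) (p q : ℂ[X]) :
    perLin N n g (p + q) = perLin N n g p + perLin N n g q := by
  ext f; simp [per_add]

theorem perLin_neg (g : GL (Fin 2) ℝ) (p : ℂ[X]) :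
    perLin N n g (-p) = -perLin N n g p := by
  ext f
  have h := per_sub n (tw f) g 0 p
  have h0 : per n (tw f) g 0 = 0 := by simp [per, IP_zero, pactG, pact_zero]
  rw [zero_sub, h0, zero_sub] at h
  simpa using h

theorem perLin_mul {γ γ' : SL(2, ℤ)} (hγ : γ ∈ CongruenceSubgroup.Gamma0 N)
    (hγ' : γ' ∈ CongruenceSubgroup.Gamma0 N) {p : ℂ[X]} (hp : p.natDegree ≤ n) :
    perLin N n (mapGL ℝ (γ * γ')) p =
      perLin N n (mapGL ℝ γ) p + perLin N n (mapGL ℝ γ') (pactG n (mapGL ℝ γ) p) := by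
  ext f
  rw [map_mul]
  simp only [perLin_apply, LinearMap.add_apply]
  exact per_mul (isTower_tw f) (mapGL_det γ) (mapGL_det γ') (inv_tw f hγ) (inv_tw f hγ') hp

theorem perLin_one {p : ℂ[X]} (hp : p.natDegree ≤ n) : perLin N n (mapGL ℝ (1 : SL(2, ℤ))) p = 0 := by
  ext f
  rw [map_one]
  simp [per_one _ hp]

/-- The period lattice. -/
noncomputable def Lam (N n : ℕ) [NeZero N] :
    Submodule ℤ (Module.Dual ℂ (CuspForm (CongruenceSubgroup.Gamma0 N) ((n : ℤ) + 2))) :=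
  Submodule.span ℤ {l | ∃ γ ∈ CongruenceSubgroup.Gamma0 N, ∃ p ∈ Ln n, l = perLin N n (mapGL ℝ γ) p}

theorem perLin_mem_Lam {γ : SL(2, ℤ)} (hγ : γ ∈ CongruenceSubgroup.Gamma0 N) {p : ℂ[X]}
    (hp : p ∈ Ln n) : perLin N n (mapGL ℝ γ) p ∈ Lam N n :=
  Submodule.subset_span ⟨γ, hγ, p, hp, rfl⟩

/-- `p ↦ perLin g p` as a `ℤ`-linear map. -/
noncomputable def perLinZ (N n : ℕ) [NeZero N] (g : GL (Fin 2) ℝ) :
    ℂ[X] →ₗ[ℤ] Module.Dual ℂ (CuspForm (CongruenceSubgroup.Gamma0 N) ((n : ℤ) + 2)) :=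
  (AddMonoidHom.mk' (fun p => perLin N n g p) (fun p q => perLin_add g p q)).toIntLinearMap

theorem Lam_fg : (Lam N n).FG := by
  classical
  obtain ⟨s, hs⟩ := Fermat.Agent.Lib.Gamma0FG.exists_finset_closure_eq_gamma0 N
  set M : Submodule ℤ (Module.Dual ℂ (CuspForm (CongruenceSubgroup.Gamma0 N) ((n : ℤ) + 2))) :=
    ⨆ γ ∈ s, (Ln n).map (perLinZ N n (mapGL ℝ γ)) with hM
  have hMfg : M.FG := by
    rw [hM]
    exact Submodule.fg_biSup s _ fun γ _ => (Ln_fg n).map _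
  have key : ∀ γ (hγ : γ ∈ Subgroup.closure (s : Set SL(2, ℤ))), ∀ p ∈ Ln n,
      perLin N n (mapGL ℝ γ) p ∈ M := by
    intro γ hγ
    induction hγ using Subgroup.closure_induction with
    | mem x hx =>
      intro p hp
      have h1 : perLin N n (mapGL ℝ x) p ∈ (Ln n).map (perLinZ N n (mapGL ℝ x)) :=
        Submodule.mem_map_of_mem (f := perLinZ N n (mapGL ℝ x)) hp
      exact (le_biSup (fun γ => (Ln n).map (perLinZ N n (mapGL ℝ γ))) hx) h1
    | one =>
      intro p hp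
      rw [perLin_one (natDegree_le_of_mem_Ln hp)]
      exact zero_mem _
    | mul x y hx hy ihx ihy =>
      intro p hp
      rw [hs] at hx hy
      rw [perLin_mul hx hy (natDegree_le_of_mem_Ln hp)]
      exact add_mem (ihx p hp) (ihy _ (pactG_mem_Ln hp _ (mapGL_int x)))
    | inv x hx ihx =>
      intro p hp
      rw [hs] at hx
      have hx' : x⁻¹ ∈ CongruenceSubgroup.Gamma0 N := inv_mem hx
      have h1 := perLin_mul (n := n) hx' hx (natDegree_le_of_mem_Ln hp)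
      rw [inv_mul_cancel, perLin_one (natDegree_le_of_mem_Ln hp)] at h1
      have h2 : perLin N n (mapGL ℝ x⁻¹) p
          = -perLin N n (mapGL ℝ x) (pactG n (mapGL ℝ x⁻¹) p) := by
        rw [eq_neg_iff_add_eq_zero]; exact h1.symm
      rw [h2]
      exact neg_mem (ihx _ (pactG_mem_Ln hp _ (mapGL_int x⁻¹)))
  have hle : Lam N n ≤ M := by
    refine Submodule.span_le.mpr ?_
    rintro l ⟨γ, hγ, p, hp, rfl⟩
    exact key γ (hs ▸ hγ) p hp
  exact hMfg.of_le hle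

end lattice

end Fermat.Agent.S22.Lattice
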