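import Mathlib

set_option autoImplicit false

open Polynomial
open UpperHalfPlane hiding I

namespace Fermat.Agent.S22.PolyAct

section general

variable {R : Type*} [CommRing R]

/-- Weight-`n` action of the matrix `(a b; c d)` on polynomials of degree `≤ n`. -/
noncomputable def pact (n : ℕ) (a b c d : R) (p : R[X]) : R[X] :=
  ∑ j ∈ Finset.range (n + 1), C (p.coeff j) * (C a * X + C b) ^ j * (C c * X + C d) ^ (n - j)

theorem pact_add (n : ℕ) (a b c d : R) (p q : R[X]) :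
    pact n a b c d (p + q) = pact n a b c d p + pact n a b c d q := by
  simp [pact, add_mul, Finset.sum_add_distrib]

theorem pact_C_mul (n : ℕ) (a b c d r : R) (p : R[X]) :
    pact n a b c d (C r * p) = C r * pact n a b c d p := by
  simp [pact, Finset.mul_sum, mul_assoc]

theorem pact_zero (n : ℕ) (a b c d : R) : pact n a b c d (0 : R[X]) = 0 := by
  simp [pact]

theorem pact_neg (n : ℕ) (a b c d : R) (p : R[X]) :
    pact n a b c d (-p) = -pact n a b c d p := by
  simp [pact, Finset.sum_neg_distrib]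

theorem pact_sub (n : ℕ) (a b c d : R) (p q : R[X]) :
    pact n a b c d (p - q) = pact n a b c d p - pact n a b c d q := by
  rw [sub_eq_add_neg, pact_add, pact_neg, ← sub_eq_add_neg]

theorem pact_sum {ι : Type*} (s : Finset ι) (n : ℕ) (a b c d : R) (p : ι → R[X]) :
    pact n a b c d (∑ i ∈ s, p i) = ∑ i ∈ s, pact n a b c d (p i) := by
  classical
  induction s using Finset.induction_on with
  | empty => simp [pact_zero]
  | insert x s hx ih => rw [Finset.sum_insert hx, Finset.sum_insert hx, pact_add, ih]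

theorem natDegree_linear_le (a b : R) : (C a * X + C b : R[X]).natDegree ≤ 1 := by
  refine (natDegree_add_le _ _).trans (max_le ?_ ?_)
  · exact (natDegree_C_mul_le _ _).trans natDegree_X_le
  · simp

theorem natDegree_pact_le (n : ℕ) (a b c d : R) (p : R[X]) : (pact n a b c d p).natDegree ≤ n := by
  refine natDegree_sum_le_of_forall_le _ _ fun j hj => ?_
  have hj' : j ≤ n := Nat.lt_succ_iff.mp (Finset.mem_range.mp hj)
  refine natDegree_mul_le.trans ?_
  have h1 : (C (p.coeff j) * (C a * X + C b) ^ j).natDegree ≤ j := by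
    refine (natDegree_C_mul_le _ _).trans ?_
    refine natDegree_pow_le.trans ?_
    calc j * (C a * X + C b : R[X]).natDegree ≤ j * 1 :=
          Nat.mul_le_mul_left _ (natDegree_linear_le a b)
      _ = j := mul_one j
  have h2 : ((C c * X + C d : R[X]) ^ (n - j)).natDegree ≤ n - j := by
    refine natDegree_pow_le.trans ?_
    calc (n - j) * (C c * X + C d : R[X]).natDegree ≤ (n - j) * 1 :=
          Nat.mul_le_mul_left _ (natDegree_linear_le c d)
      _ = n - j := mul_one _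
  omega

theorem eval_pact (n : ℕ) (a b c d : R) (p : R[X]) (z : R) :
    (pact n a b c d p).eval z =
      ∑ j ∈ Finset.range (n + 1), p.coeff j * (a * z + b) ^ j * (c * z + d) ^ (n - j) := by
  simp [pact, eval_finsetSum]

theorem map_pact {S : Type*} [CommRing S] (φ : R →+* S) (n : ℕ) (a b c d : R) (p : R[X]) :
    (pact n a b c d p).map φ = pact n (φ a) (φ b) (φ c) (φ d) (p.map φ) := by
  simp [pact, Polynomial.map_sum]

theorem pact_scale (n : ℕ) (t a b c d : R) (p : R[X]) :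
    pact n (t * a) (t * b) (t * c) (t * d) p = C (t ^ n) * pact n a b c d p := by
  unfold pact
  rw [Finset.mul_sum]
  refine Finset.sum_congr rfl fun j hj => ?_
  have hj' : j ≤ n := Nat.lt_succ_iff.mp (Finset.mem_range.mp hj)
  have h1 : (C (t * a) * X + C (t * b) : R[X]) = C t * (C a * X + C b) := by
    simp only [C_mul]; ring
  have h2 : (C (t * c) * X + C (t * d) : R[X]) = C t * (C c * X + C d) := by
    simp only [C_mul]; ring
  have h3 : (C (t ^ n) : R[X]) = C t ^ j * C t ^ (n - j) := by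
    rw [← pow_add, Nat.add_sub_cancel' hj', C_pow]
  rw [h1, h2, mul_pow, mul_pow, h3]
  ring

theorem pact_one_of_natDegree_le {n : ℕ} {p : R[X]} (hp : p.natDegree ≤ n) :
    pact n 1 0 0 1 p = p := by
  unfold pact
  conv_rhs => rw [p.as_sum_range' (n + 1) (Nat.lt_succ_of_le hp)]
  refine Finset.sum_congr rfl fun j _ => ?_
  simp [← C_mul_X_pow_eq_monomial]

end general

section field

variable {K : Type*} [Field K]

theorem eval_pact_div {n : ℕ} {p : K[X]} (hp : p.natDegree ≤ n) (a b c d z : K)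
    (hz : c * z + d ≠ 0) :
    (pact n a b c d p).eval z = (c * z + d) ^ n * p.eval ((a * z + b) / (c * z + d)) := by
  rw [eval_pact, eval_eq_sum_range' (Nat.lt_succ_of_le hp), Finset.mul_sum]
  refine Finset.sum_congr rfl fun j hj => ?_
  have hj' : j ≤ n := Nat.lt_succ_iff.mp (Finset.mem_range.mp hj)
  have h3 : (c * z + d) ^ n = (c * z + d) ^ j * (c * z + d) ^ (n - j) := by
    rw [← pow_add, Nat.add_sub_cancel' hj']
  rw [h3, div_pow]
  generalize c * z + d = D at hz ⊢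
  generalize a * z + b = A
  field_simp

end field


section glsec

open scoped MatrixGroups

theorem upper_infinite : Set.Infinite {z : ℂ | 0 < z.im} := by
  refine Set.infinite_of_injective_forall_mem (f := fun m : ℕ => (m : ℂ) + Complex.I) ?_ ?_
  · intro m m' h
    have h' : (m : ℂ) = (m' : ℂ) := add_right_cancel h
    exact_mod_cast h'
  · intro m
    simp

theorem eq_of_eval_eq_on_upper {p q : ℂ[X]} (h : ∀ τ : ℍ, p.eval (τ : ℂ) = q.eval (τ : ℂ)) :
    p = q := by
  refine Polynomial.eq_of_infinite_eval_eq p q (upper_infinite.mono ?_)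
  intro z hz
  exact h ⟨z, hz⟩

/-- The weight-`n` action of `g ∈ GL(2,ℝ)` on complex polynomials. -/
noncomputable def pactG (n : ℕ) (g : GL (Fin 2) ℝ) (p : ℂ[X]) : ℂ[X] :=
  pact n ((g 0 0 : ℝ) : ℂ) ((g 0 1 : ℝ) : ℂ) ((g 1 0 : ℝ) : ℂ) ((g 1 1 : ℝ) : ℂ) p

theorem natDegree_pactG_le (n : ℕ) (g : GL (Fin 2) ℝ) (p : ℂ[X]) :
    (pactG n g p).natDegree ≤ n := natDegree_pact_le _ _ _ _ _ _

theorem pactG_add (n : ℕ) (g : GL (Fin 2) ℝ) (p q : ℂ[X]) :
    pactG n g (p + q) = pactG n g p + pactG n g q := pact_add _ _ _ _ _ _ _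

theorem pactG_C_mul (n : ℕ) (g : GL (Fin 2) ℝ) (r : ℂ) (p : ℂ[X]) :
    pactG n g (C r * p) = C r * pactG n g p := pact_C_mul _ _ _ _ _ _ _

theorem pactG_sub (n : ℕ) (g : GL (Fin 2) ℝ) (p q : ℂ[X]) :
    pactG n g (p - q) = pactG n g p - pactG n g q := pact_sub _ _ _ _ _ _ _

theorem pactG_sum {ι : Type*} (s : Finset ι) (n : ℕ) (g : GL (Fin 2) ℝ) (p : ι → ℂ[X]) :
    pactG n g (∑ i ∈ s, p i) = ∑ i ∈ s, pactG n g (p i) := pact_sum _ _ _ _ _ _ _

theorem eval_pactG (n : ℕ) (g : GL (Fin 2) ℝ) (p : ℂ[X]) (z : ℂ) :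
    (pactG n g p).eval z =
      ∑ j ∈ Finset.range (n + 1), p.coeff j * num g z ^ j * denom g z ^ (n - j) :=
  eval_pact _ _ _ _ _ _ _

theorem eval_pactG_of_im_ne_zero {n : ℕ} {p : ℂ[X]} (hp : p.natDegree ≤ n) (g : GL (Fin 2) ℝ)
    {z : ℂ} (hz : z.im ≠ 0) :
    (pactG n g p).eval z = denom g z ^ n * p.eval (num g z / denom g z) :=
  eval_pact_div hp _ _ _ _ z (denom_ne_zero_of_im g hz)

theorem eval_pactG_smul {n : ℕ} {p : ℂ[X]} (hp : p.natDegree ≤ n) {g : GL (Fin 2) ℝ}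
    (hdet : 0 < g.val.det) (τ : ℍ) :
    (pactG n g p).eval (τ : ℂ) = denom g τ ^ n * p.eval ((g • τ : ℍ) : ℂ) := by
  rw [eval_pactG_of_im_ne_zero hp g τ.im_ne_zero, coe_smul_of_det_pos (by simpa using hdet)]

theorem num_mul (g h : GL (Fin 2) ℝ) {z : ℂ} (hz : z.im ≠ 0) :
    num (g * h) z = num g (num h z / denom h z) * denom h z := by
  have hd := denom_ne_zero_of_im h hz
  simp only [num, Matrix.GeneralLinearGroup.coe_mul, Matrix.mul_apply, Fin.sum_univ_two]
  simp only [denom] at hd ⊢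
  push_cast
  field_simp
  ring

theorem pactG_mul (n : ℕ) (p : ℂ[X]) (g h : GL (Fin 2) ℝ) :
    pactG n h (pactG n g p) = pactG n (g * h) p := by
  refine eq_of_eval_eq_on_upper fun τ => ?_
  have hz : (τ : ℂ).im ≠ 0 := τ.im_ne_zero
  have hd := denom_ne_zero_of_im h hz
  rw [eval_pactG_of_im_ne_zero (natDegree_pactG_le n g p) h hz, eval_pactG, eval_pactG,
    Finset.mul_sum]
  refine Finset.sum_congr rfl fun j hj => ?_
  have hj' : j ≤ n := Nat.lt_succ_iff.mp (Finset.mem_range.mp hj)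
  rw [num_mul g h hz, denom_cocycle g h hz, mul_pow, mul_pow]
  have h3 : denom h (τ : ℂ) ^ n = denom h (τ : ℂ) ^ j * denom h (τ : ℂ) ^ (n - j) := by
    rw [← pow_add, Nat.add_sub_cancel' hj']
  rw [h3]
  ring

theorem pactG_one {n : ℕ} {p : ℂ[X]} (hp : p.natDegree ≤ n) : pactG n 1 p = p := by
  unfold pactG
  simpa using pact_one_of_natDegree_le (R := ℂ) hp

end glsec


section integral

open scoped MatrixGroups

/-- The ℤ-linear map `ℤ[X] → ℂ[X]`. -/
noncomputable def intMap : ℤ[X] →ₗ[ℤ] ℂ[X] :=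
  (Polynomial.mapRingHom (Int.castRingHom ℂ)).toAddMonoidHom.toIntLinearMap

@[simp] theorem intMap_apply (q : ℤ[X]) : intMap q = q.map (Int.castRingHom ℂ) := rfl

/-- Integral polynomials of degree `≤ n`, as a `ℤ`-submodule of `ℂ[X]`. -/
noncomputable def Ln (n : ℕ) : Submodule ℤ ℂ[X] := (Polynomial.degreeLE ℤ (n : WithBot ℕ)).map intMap

theorem mem_Ln_iff {n : ℕ} {p : ℂ[X]} :
    p ∈ Ln n ↔ ∃ q : ℤ[X], q.natDegree ≤ n ∧ q.map (Int.castRingHom ℂ) = p := by
  simp only [Ln, Submodule.mem_map, mem_degreeLE, intMap_apply, natDegree_le_iff_degree_le]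

theorem Ln_fg (n : ℕ) : (Ln n).FG := by
  classical
  refine Submodule.FG.map _ ?_
  rw [degreeLE_eq_span_X_pow]
  exact Submodule.fg_span (Finset.finite_toSet _)

theorem natDegree_le_of_mem_Ln {n : ℕ} {p : ℂ[X]} (hp : p ∈ Ln n) : p.natDegree ≤ n := by
  obtain ⟨q, hq, rfl⟩ := mem_Ln_iff.mp hp
  exact natDegree_map_le.trans hq

theorem X_pow_mem_Ln {n j : ℕ} (hj : j ≤ n) : (X : ℂ[X]) ^ j ∈ Ln n :=
  mem_Ln_iff.mpr ⟨X ^ j, by simp [hj], by simp⟩

theorem pact_mem_Ln {n : ℕ} {p : ℂ[X]} (hp : p ∈ Ln n) (a b c d : ℤ) :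
    pact n (a : ℂ) (b : ℂ) (c : ℂ) (d : ℂ) p ∈ Ln n := by
  obtain ⟨q, hq, rfl⟩ := mem_Ln_iff.mp hp
  refine mem_Ln_iff.mpr ⟨pact n a b c d q, natDegree_pact_le _ _ _ _ _ _, ?_⟩
  rw [map_pact]
  simp

theorem pactG_mem_Ln {n : ℕ} {p : ℂ[X]} (hp : p ∈ Ln n) (g : GL (Fin 2) ℝ)
    (hg : ∀ i j, ∃ m : ℤ, (g i j : ℝ) = m) : pactG n g p ∈ Ln n := by
  obtain ⟨a, ha⟩ := hg 0 0
  obtain ⟨b, hb⟩ := hg 0 1
  obtain ⟨c, hc⟩ := hg 1 0
  obtain ⟨d, hd⟩ := hg 1 1
  have := pact_mem_Ln hp a b c d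
  unfold pactG
  rw [ha, hb, hc, hd]
  simpa using this

end integral

end Fermat.Agent.S22.PolyAct
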