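import Fermat.Agent.S22.Tower
import Fermat.Agent.S22.PolyAct

set_option autoImplicit false

open Polynomial Filter Function
open UpperHalfPlane hiding I
open scoped Topology Manifold MatrixGroups

namespace Fermat.Agent.S22.Period

open Fermat.Agent.S22.Tower Fermat.Agent.S22.PolyAct

/-- `I_p(τ) = Σ_i (-1)^i p^{(i)}(τ) T_{i+1}(τ)`: a primitive of `p · T_0` when `deg p ≤ n`. -/
noncomputable def IP (n : ℕ) (T : ℕ → ℍ → ℂ) (p : ℂ[X]) (τ : ℍ) : ℂ :=
  ∑ i ∈ Finset.range (n + 1), (-1 : ℂ) ^ i * (derivative^[i] p).eval (τ : ℂ) * T (i + 1) τ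

theorem telescope (a : ℕ → ℂ) (n : ℕ) :
    ∑ i ∈ Finset.range (n + 1), (-1 : ℂ) ^ i * (a (i + 1) + a i) = a 0 + (-1) ^ n * a (n + 1) := by
  induction n with
  | zero => simp [add_comm]
  | succ n ih =>
    rw [Finset.sum_range_succ, ih]
    ring

theorem hasDerivAt_IP {n : ℕ} {T : ℕ → ℍ → ℂ} (hT : IsTower T) {p : ℂ[X]}
    (hp : p.natDegree ≤ n) (τ : ℍ) :
    HasDerivAt (IP n T p ∘ ofComplex) (p.eval (τ : ℂ) * T 0 τ) τ := by
  have h1 : ∀ i ∈ Finset.range (n + 1), HasDerivAt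
      (fun z : ℂ => (-1 : ℂ) ^ i * (derivative^[i] p).eval z * (T (i + 1) ∘ ofComplex) z)
      ((-1 : ℂ) ^ i * ((derivative^[i + 1] p).eval (τ : ℂ) * T (i + 1) τ
        + (derivative^[i] p).eval (τ : ℂ) * T i τ)) τ := by
    intro i _
    have hpoly := (derivative^[i] p).hasDerivAt (τ : ℂ)
    have hmul := (hpoly.mul (hT.deriv i τ)).const_mul ((-1 : ℂ) ^ i)
    rw [Function.iterate_succ_apply']
    have e1 : (fun z : ℂ => (-1 : ℂ) ^ i * (derivative^[i] p).eval z * (T (i + 1) ∘ ofComplex) z)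
        = fun y => (-1 : ℂ) ^ i * ((fun x => Polynomial.eval x (derivative^[i] p)) *
          T (i + 1) ∘ ofComplex) y := by
      funext z; simp [mul_assoc]
    have e2 : (T (i + 1) ∘ ofComplex) (τ : ℂ) = T (i + 1) τ := by simp [ofComplex_apply]
    rw [e1]
    rw [e2] at hmul
    exact hmul
  have h2 := HasDerivAt.fun_sum h1
  have h3 : ∑ i ∈ Finset.range (n + 1), (-1 : ℂ) ^ i *
      ((derivative^[i + 1] p).eval (τ : ℂ) * T (i + 1) τ + (derivative^[i] p).eval (τ : ℂ) * T i τ)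
      = p.eval (τ : ℂ) * T 0 τ := by
    rw [telescope (fun i => (derivative^[i] p).eval (τ : ℂ) * T i τ) n,
      iterate_derivative_eq_zero (Nat.lt_succ_of_le hp)]
    simp
  rw [h3] at h2
  refine h2.congr_of_eventuallyEq ?_
  filter_upwards [eventuallyEq_coe_comp_ofComplex τ.im_pos] with z hz
  simp only [comp_apply, id_eq] at hz
  simp only [comp_apply, IP, hz]


section linear

variable (n : ℕ) (T T' : ℕ → ℍ → ℂ) (p q : ℂ[X]) (τ : ℍ)

theorem IP_add : IP n T (p + q) τ = IP n T p τ + IP n T q τ := by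
  simp only [IP, iterate_map_add, eval_add, ← Finset.sum_add_distrib]
  refine Finset.sum_congr rfl fun i _ => ?_
  ring

theorem IP_C_mul (r : ℂ) : IP n T (C r * p) τ = r * IP n T p τ := by
  simp only [IP, iterate_derivative_C_mul, eval_mul, eval_C, Finset.mul_sum]
  refine Finset.sum_congr rfl fun i _ => ?_
  ring

theorem IP_zero : IP n T 0 τ = 0 := by
  simp [IP]

theorem IP_neg : IP n T (-p) τ = -IP n T p τ := by
  simp only [IP, iterate_derivative_neg, eval_neg, ← Finset.sum_neg_distrib]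
  refine Finset.sum_congr rfl fun i _ => ?_
  ring

theorem IP_sub : IP n T (p - q) τ = IP n T p τ - IP n T q τ := by
  rw [sub_eq_add_neg, IP_add, IP_neg, ← sub_eq_add_neg]

theorem IP_sum {ι : Type*} (s : Finset ι) (P : ι → ℂ[X]) :
    IP n T (∑ i ∈ s, P i) τ = ∑ i ∈ s, IP n T (P i) τ := by
  classical
  induction s using Finset.induction_on with
  | empty => simp [IP_zero]
  | insert x s hx ih => rw [Finset.sum_insert hx, Finset.sum_insert hx, IP_add, ih]

theorem IP_tower_add : IP n (fun m => T m + T' m) p τ = IP n T p τ + IP n T' p τ := by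
  simp only [IP, Pi.add_apply, ← Finset.sum_add_distrib]
  refine Finset.sum_congr rfl fun i _ => ?_
  ring

theorem IP_tower_smul (c : ℂ) : IP n (fun m => c • T m) p τ = c * IP n T p τ := by
  simp only [IP, Pi.smul_apply, smul_eq_mul, Finset.mul_sum]
  refine Finset.sum_congr rfl fun i _ => ?_
  ring

theorem IP_tower_sum {ι : Type*} (s : Finset ι) (Ts : ι → ℕ → ℍ → ℂ) :
    IP n (fun m => ∑ i ∈ s, Ts i m) p τ = ∑ i ∈ s, IP n (Ts i) p τ := by
  simp only [IP, Finset.sum_apply, Finset.mul_sum]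
  rw [Finset.sum_comm]

end linear

theorem exists_const_IP {n : ℕ} {T T' : ℕ → ℍ → ℂ} (hT : IsTower T) (hT' : IsTower T')
    (g : GL (Fin 2) ℝ) (hdet : g.val.det = 1)
    (hrel : ∀ τ : ℍ, T' 0 τ = T 0 (g • τ) * denom g τ ^ (-((n : ℤ) + 2)))
    {p : ℂ[X]} (hp : p.natDegree ≤ n) :
    ∃ κ : ℂ, ∀ τ : ℍ, IP n T p (g • τ) - IP n T' (pactG n g p) τ = κ := by
  have hdet' : 0 < g.val.det := by rw [hdet]; exact one_pos
  obtain ⟨a, ha⟩ := exists_const_of_hasDerivAt_zero
    (D := (fun τ' : ℍ => IP n T p (g • τ')) ∘ ofComplex - IP n T' (pactG n g p) ∘ ofComplex)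
    (fun τ => by
      have h1 := hasDerivAt_comp_smul g hdet' τ (hasDerivAt_IP hT hp (g • τ))
      have h2 := hasDerivAt_IP hT' (natDegree_pactG_le n g p) τ
      have h3 := h1.sub h2
      have hd : denom g τ ≠ 0 := denom_ne_zero g τ
      have hz : denom g τ ^ (-((n : ℤ) + 2)) = (denom g τ ^ n * denom g τ ^ 2)⁻¹ := by
        rw [zpow_neg, ← pow_add]; norm_cast
      have h4 : Polynomial.eval ((g • τ : ℍ) : ℂ) p * T 0 (g • τ) *
            (((g.val.det : ℝ) : ℂ) / denom g τ ^ 2) -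
          Polynomial.eval (τ : ℂ) (pactG n g p) * T' 0 τ = 0 := by
        rw [eval_pactG_smul hp hdet' τ, hrel τ, hz, hdet]
        push_cast
        field_simp
        ring
      rw [h4] at h3
      exact h3)
  refine ⟨a, fun τ => ?_⟩
  have := ha τ
  simpa [ofComplex_apply] using this

/-- The period of the tower `T` along `g` against the polynomial `p` (base point `i`). -/
noncomputable def per (n : ℕ) (T : ℕ → ℍ → ℂ) (g : GL (Fin 2) ℝ) (p : ℂ[X]) : ℂ :=
  IP n T p (g • UpperHalfPlane.I) - IP n T (pactG n g p) UpperHalfPlane.I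

/-- Weight `n+2` invariance of a function under `g` (for `det g = 1`). -/
def Inv (n : ℕ) (φ : ℍ → ℂ) (g : GL (Fin 2) ℝ) : Prop :=
  ∀ τ : ℍ, φ τ = φ (g • τ) * denom g τ ^ (-((n : ℤ) + 2))

theorem IP_smul_eq {n : ℕ} {T : ℕ → ℍ → ℂ} (hT : IsTower T) {g : GL (Fin 2) ℝ}
    (hdet : g.val.det = 1) (hinv : Inv n (T 0) g) {p : ℂ[X]} (hp : p.natDegree ≤ n) (τ : ℍ) :
    IP n T p (g • τ) = IP n T (pactG n g p) τ + per n T g p := by
  obtain ⟨κ, hκ⟩ := exists_const_IP hT hT g hdet hinv hp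
  have h1 := hκ τ
  have h2 := hκ UpperHalfPlane.I
  unfold per
  rw [h2, ← h1]
  ring

theorem per_mul {n : ℕ} {T : ℕ → ℍ → ℂ} (hT : IsTower T) {g h : GL (Fin 2) ℝ}
    (hg : g.val.det = 1) (hh : h.val.det = 1) (hginv : Inv n (T 0) g) (hhinv : Inv n (T 0) h)
    {p : ℂ[X]} (hp : p.natDegree ≤ n) :
    per n T (g * h) p = per n T g p + per n T h (pactG n g p) := by
  have h1 := IP_smul_eq hT hg hginv hp (h • UpperHalfPlane.I)
  have h2 := IP_smul_eq hT hh hhinv (natDegree_pactG_le n g p) UpperHalfPlane.I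
  unfold per at *
  rw [mul_smul, h1, ← pactG_mul]
  ring

theorem per_one {n : ℕ} (T : ℕ → ℍ → ℂ) {p : ℂ[X]} (hp : p.natDegree ≤ n) : per n T 1 p = 0 := by
  unfold per
  rw [one_smul, pactG_one hp, sub_self]

section perlinear

variable (n : ℕ) (T T' : ℕ → ℍ → ℂ) (g : GL (Fin 2) ℝ) (p q : ℂ[X])

theorem per_add : per n T g (p + q) = per n T g p + per n T g q := by
  simp only [per, IP_add, pactG_add]; ring

theorem per_C_mul (r : ℂ) : per n T g (C r * p) = r * per n T g p := by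
  simp only [per, IP_C_mul, pactG_C_mul]; ring

theorem per_sub : per n T g (p - q) = per n T g p - per n T g q := by
  simp only [per, IP_sub, pactG_sub]; ring

theorem per_sum {ι : Type*} (s : Finset ι) (P : ι → ℂ[X]) :
    per n T g (∑ i ∈ s, P i) = ∑ i ∈ s, per n T g (P i) := by
  simp only [per, IP_sum, pactG_sum, Finset.sum_sub_distrib]

theorem per_tower_add : per n (fun m => T m + T' m) g p = per n T g p + per n T' g p := by
  simp only [per, IP_tower_add]; ring

theorem per_tower_smul (c : ℂ) : per n (fun m => c • T m) g p = c * per n T g p := by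
  simp only [per, IP_tower_smul]; ring

end perlinear

end Fermat.Agent.S22.Period
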